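/-
T3-Z (helper6): the abstract core of S37 (`SpecializationExists`).

`J` a `HeckeAlg`-module with a commuting action of `Gal(L/K)`, `A ⊂ L` a valuation subring, `ℓ` a prime.
Let `𝒦 ⊆ J` be the `HeckeAlg`-submodule generated by
  * `τ x - x`            (`τ` in the inertia group of `A`), and
  * `σ σ x - T_ℓ σ x + ℓ x` (`σ` a Frobenius element at `A`).
Then `J' := J ⧸ 𝒦`, `sp := mkQ`, `F :=` the map induced by any Frobenius element satisfy all the
clauses of `IsSpecialization` and `SpecialFibreRelation` TAUTOLOGICALLY, except `injective_torsion`,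
which says `𝒦 ∩ J[p^∞] = 0`.  That follows from ANY additive map `ρ : J → G` which kills the generators
of `𝒦` and is injective on `J[p^∞]`.
-/
import Fermat.Prelude.Def_HeckeGalois_EichlerShimura
import Fermat.Agent.Lib.TW.Frob

set_option autoImplicit false
set_option linter.unusedSectionVars false
set_option linter.style.haveILetI false

namespace Fermat.Agent.T3

open ModularCurve Fermat.Agent.TW Fermat.Agent.CFT.Bridge
open scoped Pointwise

variable {K L : Type*} [Field K] [Field L] [Algebra K L]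
variable (J : Type*) [AddCommGroup J] [Module HeckeAlg J]
  [DistribMulAction (L ≃ₐ[K] L) J] [SMulCommClass (L ≃ₐ[K] L) HeckeAlg J]
variable (A : ValuationSubring L) (ℓ : ℕ) (hℓ : ℓ.Prime)

/-- the generators of the kernel of the universal specialization -/
def t3zGens : Set J :=
  {y | (∃ τ ∈ A.inertiaSubgroupIn K, ∃ x : J, y = τ • x - x) ∨
    (∃ σ : L ≃ₐ[K] L, A.IsFrobeniusAt σ ℓ ∧ ∃ x : J,
      y = σ • σ • x - heckeGen ⟨ℓ, hℓ⟩ • (σ • x) + ℓ • x)}

/-- the kernel of the universal specialization -/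
noncomputable def t3zKer : Submodule HeckeAlg J := Submodule.span HeckeAlg (t3zGens (K := K) J A ℓ hℓ)

variable {J A ℓ hℓ}

theorem t3z_smul_mem_gens (T : HeckeAlg) {y : J} (hy : y ∈ t3zGens (K := K) J A ℓ hℓ) :
    T • y ∈ t3zGens (K := K) J A ℓ hℓ := by
  haveI : SMulCommClass HeckeAlg (L ≃ₐ[K] L) J := SMulCommClass.symm _ _ _
  rcases hy with ⟨τ, hτ, x, rfl⟩ | ⟨σ, hσ, x, rfl⟩
  · refine Or.inl ⟨τ, hτ, T • x, ?_⟩
    rw [smul_sub, smul_comm T τ x]
  · refine Or.inr ⟨σ, hσ, T • x, ?_⟩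
    rw [smul_add, smul_sub, smul_comm T σ (σ • x), smul_comm T σ x,
      smul_comm T (heckeGen ⟨ℓ, hℓ⟩) (σ • x), smul_comm T σ x, smul_comm T ℓ x]

/-- the decomposition group preserves the generators -/
theorem t3z_galois_smul_mem_gens {g : L ≃ₐ[K] L} (hg : g ∈ A.decompositionSubgroup K) {y : J}
    (hy : y ∈ t3zGens (K := K) J A ℓ hℓ) : g • y ∈ t3zGens (K := K) J A ℓ hℓ := by
  have hgA : g • A = A := hg
  rcases hy with ⟨τ, hτ, x, rfl⟩ | ⟨σ, hσ, x, rfl⟩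
  · refine Or.inl ⟨g * τ * g⁻¹, ?_, g • x, ?_⟩
    · have h1 := (mem_inertiaSubgroupIn_smul_iff (K := K) A g (g * τ * g⁻¹))
      rw [hgA] at h1
      rw [h1]
      have : g⁻¹ * (g * τ * g⁻¹) * g = τ := by group
      rw [this]
      exact hτ
    · rw [smul_sub, mul_smul, mul_smul, inv_smul_smul]
  · refine Or.inr ⟨g * σ * g⁻¹, ?_, g • x, ?_⟩
    · have h1 := isFrobeniusAt_conj hσ g
      rwa [hgA] at h1
    · have e1 : (g * σ * g⁻¹) • g • x = g • σ • x := by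
        rw [mul_smul, mul_smul, inv_smul_smul]
      rw [e1, mul_smul, mul_smul, inv_smul_smul, smul_add, smul_sub,
        smul_comm g (heckeGen ⟨ℓ, hℓ⟩) (σ • x), smul_comm g ℓ x]

/-- an additive map killing the generators kills the kernel -/
theorem t3z_ker_le {G : Type*} [AddCommGroup G] (ρ : J →+ G)
    (hρ : ∀ y ∈ t3zGens (K := K) J A ℓ hℓ, ρ y = 0) {y : J}
    (hy : y ∈ t3zKer (K := K) J A ℓ hℓ) : ρ y = 0 := by
  have key : ∀ y ∈ t3zKer (K := K) J A ℓ hℓ, ∀ T : HeckeAlg, ρ (T • y) = 0 := by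
    intro y hy
    induction hy using Submodule.span_induction with
    | mem y hy => exact fun T => hρ _ (t3z_smul_mem_gens T hy)
    | zero => intro T; rw [smul_zero, map_zero]
    | add a b _ _ ha hb => intro T; rw [smul_add, map_add, ha T, hb T, add_zero]
    | smul S a _ ha => intro T; rw [smul_smul]; exact ha (T * S)
  have := key y hy 1
  rwa [one_smul] at this

/-- the decomposition group preserves the kernel -/
theorem t3z_galois_smul_mem_ker {g : L ≃ₐ[K] L} (hg : g ∈ A.decompositionSubgroup K) {y : J}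
    (hy : y ∈ t3zKer (K := K) J A ℓ hℓ) : g • y ∈ t3zKer (K := K) J A ℓ hℓ := by
  induction hy using Submodule.span_induction with
  | mem y hy => exact Submodule.subset_span (t3z_galois_smul_mem_gens hg hy)
  | zero => rw [smul_zero]; exact Submodule.zero_mem _
  | add a b _ _ ha hb => rw [smul_add]; exact Submodule.add_mem _ ha hb
  | smul S a _ ha => rw [smul_comm g S a]; exact Submodule.smul_mem _ S ha

/-- **the abstract core of S37** -/
theorem t3_specialization_of_rho (p : ℕ) (J : Type) [AddCommGroup J] [Module HeckeAlg J]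
    [DistribMulAction (L ≃ₐ[K] L) J] [SMulCommClass (L ≃ₐ[K] L) HeckeAlg J]
    (A : ValuationSubring L) (ℓ : ℕ) (hℓ : ℓ.Prime)
    {G : Type*} [AddCommGroup G] (ρ : J →+ G)
    (hI : ∀ τ ∈ A.inertiaSubgroupIn K, ∀ x : J, ρ (τ • x) = ρ x)
    (hF : ∀ σ : L ≃ₐ[K] L, A.IsFrobeniusAt σ ℓ → ∀ x : J,
      ρ (σ • σ • x - heckeGen ⟨ℓ, hℓ⟩ • (σ • x) + ℓ • x) = 0)
    (hinj : ∀ x : J, (∃ n : ℕ, p ^ n • x = 0) → ρ x = 0 → x = 0)
    (hex : ∃ σ : L ≃ₐ[K] L, A.IsFrobeniusAt σ ℓ) :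
    ∃ (J' : Type) (_ : AddCommGroup J') (_ : Module HeckeAlg J') (sp : J →+ J')
      (F : J' →+ J'),
      IsSpecialization (K := K) p J J' A ℓ sp F ∧ SpecialFibreRelation J' ℓ hℓ F := by
  obtain ⟨σ₀, hσ₀⟩ := hex
  have hσ₀D : σ₀ ∈ A.decompositionSubgroup K := hσ₀.mem_decompositionSubgroup
  set 𝒦 : Submodule HeckeAlg J := t3zKer (K := K) J A ℓ hℓ with h𝒦
  have hρ : ∀ y ∈ t3zGens (K := K) J A ℓ hℓ, ρ y = 0 := by
    rintro y (⟨τ, hτ, x, rfl⟩ | ⟨σ, hσ, x, rfl⟩)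
    · rw [map_sub, hI τ hτ x, sub_self]
    · exact hF σ hσ x
  -- the Frobenius on the quotient
  let φ : J →ₗ[HeckeAlg] J := DistribSMul.toLinearMap HeckeAlg J σ₀
  have hφ : 𝒦 ≤ 𝒦.comap φ := fun y hy => t3z_galois_smul_mem_ker hσ₀D hy
  let F : (J ⧸ 𝒦) →ₗ[HeckeAlg] (J ⧸ 𝒦) := 𝒦.mapQ 𝒦 φ hφ
  refine ⟨J ⧸ 𝒦, inferInstance, inferInstance, 𝒦.mkQ.toAddMonoidHom, F.toAddMonoidHom, ?_, ?_⟩
  · refine ⟨fun T x => ?_, fun τ hτ x => ?_, fun σ hσ x => ?_, fun x hx h0 => ?_⟩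
    · exact map_smul 𝒦.mkQ T x
    · show 𝒦.mkQ (τ • x) = 𝒦.mkQ x
      rw [← sub_eq_zero, ← map_sub, Submodule.mkQ_apply, Submodule.Quotient.mk_eq_zero]
      exact Submodule.subset_span (Or.inl ⟨τ, hτ, x, rfl⟩)
    · show 𝒦.mkQ (σ • x) = F (𝒦.mkQ x)
      have hF' : F (𝒦.mkQ x) = 𝒦.mkQ (σ₀ • x) := rfl
      rw [hF', ← sub_eq_zero, ← map_sub, Submodule.mkQ_apply, Submodule.Quotient.mk_eq_zero]
      have hτ : σ₀⁻¹ * σ ∈ A.inertiaSubgroupIn K := frobenius_inv_mul_mem_inertia hσ₀ hσ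
      have h1 : σ • x - σ₀ • x = σ₀ • ((σ₀⁻¹ * σ) • x - x) := by
        rw [smul_sub, ← mul_smul, mul_inv_cancel_left]
      rw [h1]
      exact t3z_galois_smul_mem_ker hσ₀D (Submodule.subset_span (Or.inl ⟨_, hτ, x, rfl⟩))
    · have h1 : x ∈ 𝒦 := by
        have : 𝒦.mkQ x = 0 := h0
        rwa [Submodule.mkQ_apply, Submodule.Quotient.mk_eq_zero] at this
      exact hinj x hx (t3z_ker_le ρ hρ h1)
  · intro y
    obtain ⟨x, rfl⟩ := 𝒦.mkQ_surjective y
    show F (F (𝒦.mkQ x)) - heckeGen ⟨ℓ, hℓ⟩ • F (𝒦.mkQ x) + ℓ • 𝒦.mkQ x = 0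
    have hF' : ∀ z : J, F (𝒦.mkQ z) = 𝒦.mkQ (σ₀ • z) := fun _ => rfl
    rw [hF', hF', ← map_smul, ← map_nsmul, ← map_sub, ← map_add, Submodule.mkQ_apply,
      Submodule.Quotient.mk_eq_zero]
    exact Submodule.subset_span (Or.inr ⟨σ₀, hσ₀, x, rfl⟩)

end Fermat.Agent.T3
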