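/-
T3-Z (helper6): S37 (`SpecializationExists` for `J₀(N)`) from ONE explicit input `T3Rho`:
for `ℓ ∤ N` and `A ⊂ ℚ̄` over `ℓ` an additive map `ρ` out of `J₀(N)` which
 (i) is invariant under the inertia group of `A`,
 (ii) kills `σ σ x - T_ℓ σ x + ℓ x` for every Frobenius element `σ` at `A`,
 (iii) is injective on prime-to-`ℓ` torsion.
(`ρ` = reduction of divisor classes at a good auxiliary level, after pull-back.)
-/
import Fermat.Agent.Lib.T3.Asm.Quot
import Fermat.Agent.Lib.Helper6.FrobeniusExists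
import Fermat.Prelude.Def_ModularCurve_HeckeModule

set_option autoImplicit false
set_option linter.unusedSectionVars false
set_option linter.style.haveILetI false

namespace Fermat.Agent.T3

open ModularCurve

local notation "Qb" => AlgebraicClosure ℚ
local notation "GQ" => (AlgebraicClosure ℚ ≃ₐ[ℚ] AlgebraicClosure ℚ)

/-- **the remaining input of S37** -/
def T3Rho : Prop :=
  ∀ (N : ℕ) [NeZero N] (ℓ : ℕ) (hℓ : ℓ.Prime), ¬ ℓ ∣ N →
    ∀ A : ValuationSubring Qb, A.LiesOverPrime ℓ →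
      ∃ (G : Type) (_ : AddCommGroup G) (ρ : JZero N →+ G),
        (∀ τ ∈ A.inertiaSubgroupIn ℚ, ∀ x : JZero N, ρ (τ • x) = ρ x) ∧
        (∀ σ : GQ, A.IsFrobeniusAt σ ℓ → ∀ x : JZero N,
          ρ (σ • σ • x - heckeOperatorBar N ⟨ℓ, hℓ⟩ (σ • x) + ℓ • x) = 0) ∧
        (∀ m : ℕ, ¬ ℓ ∣ m → ∀ x : JZero N, m • x = 0 → ρ x = 0 → x = 0)

/-- **S37 from `T3Rho`** -/
theorem t3_S37_of_rho (h : T3Rho) (N p : ℕ) [NeZero N]
    (hcomm : ModularCurve.HeckeOperatorsCommuteBar N) :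
    letI := ModularCurve.heckeModuleBar N
    ∀ (_ : SMulCommClass (AlgebraicClosure ℚ ≃ₐ[ℚ] AlgebraicClosure ℚ) ModularCurve.HeckeAlg
      (ModularCurve.JZero N)),
      ModularCurve.SpecializationExists (K := ℚ) (L := AlgebraicClosure ℚ) N p
        (ModularCurve.JZero N) := by
  letI := ModularCurve.heckeModuleBar N
  intro hsc ℓ hℓ hℓNp A hA
  have hℓN : ¬ ℓ ∣ N := fun h' => hℓNp (h'.mul_right p)
  have hℓp : ¬ ℓ ∣ p := fun h' => hℓNp (h'.mul_left N)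
  obtain ⟨G, _, ρ, hI, hF, hinj⟩ := h N ℓ hℓ hℓN A hA
  refine t3_specialization_of_rho (K := ℚ) p (JZero N) A ℓ hℓ ρ hI ?_ ?_
    (Fermat.Agent.Lib.Helper6.exists_isFrobeniusAt A hℓ hA)
  · intro σ hσ x
    have := hF σ hσ x
    rwa [← heckeModuleBar_heckeGen_smul hcomm ⟨ℓ, hℓ⟩ (σ • x)] at this
  · rintro x ⟨n, hn⟩ h0
    exact hinj (p ^ n) (fun h' => hℓp (hℓ.dvd_of_dvd_pow h')) x hn h0

end Fermat.Agent.T3
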