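/-
T3-G (helper6): `T3Rho` from the packages A (reduction of divisor classes), B (Galois
equivariance), P (pull-back to a good level), H (Hecke inputs) and ONE remaining input
`T3dES` = package D (Eichler–Shimura on points at good levels).
-/
import Fermat.Agent.Lib.T3.Asm.Final
import Fermat.Agent.Lib.T3.Red.Modular
import Fermat.Agent.Lib.T3.Red.PicEquiv
import Fermat.Agent.Lib.T3.Gal.Mod
import Fermat.Agent.Lib.T3.Pull.Final
import Fermat.Agent.Lib.T3.Hecke.Modular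

set_option autoImplicit false
set_option linter.style.haveILetI false
set_option linter.unusedSectionVars false
set_option linter.unusedVariables false
set_option synthInstance.maxHeartbeats 400000

namespace Fermat.Agent.T3

open AlgebraicCurve IntermediateField Fermat.Agent.Curve Fermat.Agent.Curve.PlaceAux
  Fermat.Agent.T1 ModularCurve Fermat.Agent.TW Fermat.Agent.S05Lib HahnSeries

local notation "Qb" => AlgebraicClosure ℚ
local notation "GQ" => (AlgebraicClosure ℚ ≃ₐ[ℚ] AlgebraicClosure ℚ)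

section Level

variable (𝔓 : FFPlace) (M : ℕ) [NeZero M] (h49 : 4 ∣ M ∨ 9 ∣ M) (hM : ¬ 𝔓.p ∣ M)

/-- the reduction map of places at the good level `M` -/
noncomputable def t3zR : Place Qb ↥(modularFunctionFieldBar M) →
    Place (IsLocalRing.ResidueField ↥𝔓.P) ↥(tbBarF 𝔓 M) :=
  t3aR (t3a_good_modular 𝔓 M h49 hM)

/-- the Hecke correspondence `T_p` on divisors at level `M`, `p = 𝔓.p` -/
noncomputable def t3zT : Divisor Qb ↥(modularFunctionFieldBar M) →+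
    Divisor Qb ↥(modularFunctionFieldBar M) :=
  haveI : NeZero 𝔓.p := ⟨𝔓.hp.ne_zero⟩
  heckeDivBar (t3h_alphaIntegral M 𝔓.p) (t3h_betaIntegral M 𝔓.p)

end Level

/-- **package D**: Eichler–Shimura on points at the good levels:
`r (T_p P) = Φ (r P) + p Φ⁻¹ (r P)` -/
def T3dES : Prop :=
  ∀ (𝔓 : FFPlace) (M : ℕ) [NeZero M] (h49 : 4 ∣ M ∨ 9 ∣ M) (hM : ¬ 𝔓.p ∣ M)
    (P : Place Qb ↥(modularFunctionFieldBar M)),
    Finsupp.mapDomain (t3zR 𝔓 M h49 hM) (t3zT 𝔓 M (Finsupp.single P 1)) =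
      Finsupp.single (t3bPhi 𝔓 M • t3zR 𝔓 M h49 hM P) 1 +
        (𝔓.p : ℤ) • Finsupp.single ((t3bPhi 𝔓 M)⁻¹ • t3zR 𝔓 M h49 hM P) 1

section Level

variable (𝔓 : FFPlace) (M : ℕ) [NeZero M] (h49 : 4 ∣ M ∨ 9 ∣ M) (hM : ¬ 𝔓.p ∣ M)

/-- the reduction of divisor classes at the good level `M` -/
noncomputable def t3zRed : JZero M →+ Pic0 (IsLocalRing.ResidueField ↥𝔓.P) ↥(tbBarF 𝔓 M) :=
  t3aRed (t3a_good_modular 𝔓 M h49 hM)

set_option maxHeartbeats 1600000 in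
theorem t3z_isRed : T3aIsRed (tbBaseQ (t3aOK 𝔓 M hM)) (tbJ M)
    (t3aR (t3a_good_modular 𝔓 M h49 hM)) :=
  t3aR_isRed (t3a_good_modular 𝔓 M h49 hM)

set_option maxHeartbeats 1600000 in
/-- **(i)** inertia acts trivially after reduction -/
theorem t3zRed_inertia {τ : GQ} (hτ : τ ∈ 𝔓.P.inertiaSubgroupIn ℚ) (y : JZero M) :
    t3zRed 𝔓 M h49 hM (τ • y) = t3zRed 𝔓 M h49 hM y := by
  rw [galois_smul_pic0_def]
  exact t3aRed_smul_of_invariant (t3a_good_modular 𝔓 M h49 hM)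
    (fun D => t3b_mapDomain_inertia (t3aOK 𝔓 M hM) (t3a_good_modular 𝔓 M h49 hM)
      (t3z_isRed 𝔓 M h49 hM) hτ D) y

set_option maxHeartbeats 1600000 in
/-- **(i')** a Frobenius element acts as the coefficientwise Frobenius after reduction -/
theorem t3zRed_frobenius {σ : GQ} (hσ : 𝔓.P.IsFrobeniusAt σ 𝔓.p) (y : JZero M) :
    t3zRed 𝔓 M h49 hM (σ • y) = t3bPhi 𝔓 M • t3zRed 𝔓 M h49 hM y := by
  rw [galois_smul_pic0_def]
  exact t3aRed_smul (t3a_good_modular 𝔓 M h49 hM)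
    (fun D => t3b_mapDomain_frobenius (t3aOK 𝔓 M hM) (t3a_good_modular 𝔓 M h49 hM)
      (t3z_isRed 𝔓 M h49 hM) hσ D) y

set_option maxHeartbeats 1600000 in
theorem t3zT_mem_degZero (D : Divisor Qb ↥(modularFunctionFieldBar M))
    (hD : D ∈ Divisor.degZero (K := Qb) (F := ↥(modularFunctionFieldBar M))) :
    t3zT 𝔓 M D ∈ Divisor.degZero (K := Qb) (F := ↥(modularFunctionFieldBar M)) := by
  haveI : NeZero 𝔓.p := ⟨𝔓.hp.ne_zero⟩
  exact Divisor.correspondence_mem_degZero _ _ _ _ (t3h_betaFundamental M 𝔓.p) hD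

set_option maxHeartbeats 1600000 in
/-- `T_p` on the class of a divisor -/
theorem t3z_hecke_mk (D : Divisor.degZero (K := Qb) (F := ↥(modularFunctionFieldBar M))) :
    (heckeOperatorBar M ⟨𝔓.p, 𝔓.hp⟩).toAddMonoidHom (Pic0.mk D) =
      Pic0.mk ⟨t3zT 𝔓 M (D : Divisor Qb ↥(modularFunctionFieldBar M)),
        t3zT_mem_degZero 𝔓 M _ D.2⟩ := by
  haveI : NeZero 𝔓.p := ⟨𝔓.hp.ne_zero⟩
  exact t3h_heckeOperatorAlong_mk M 𝔓.p D

set_option maxHeartbeats 1600000 in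
/-- **(ii)** Eichler–Shimura on divisor classes at the good level `M` -/
theorem t3zRed_hecke (hES : T3dES) (y : JZero M) :
    t3zRed 𝔓 M h49 hM (heckeOperatorBar M ⟨𝔓.p, 𝔓.hp⟩ y) =
      t3bPhi 𝔓 M • t3zRed 𝔓 M h49 hM y + 𝔓.p • ((t3bPhi 𝔓 M)⁻¹ • t3zRed 𝔓 M h49 hM y) :=
  t3aRed_corr (t3a_good_modular 𝔓 M h49 hM) (t3zT 𝔓 M) (t3zT_mem_degZero 𝔓 M)
    (heckeOperatorBar M ⟨𝔓.p, 𝔓.hp⟩).toAddMonoidHom (t3z_hecke_mk 𝔓 M) (t3bPhi 𝔓 M) 𝔓.p
    (hES 𝔓 M h49 hM) y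

end Level

set_option maxHeartbeats 1600000 in
/-- **`T3Rho` from Eichler–Shimura on points** -/
theorem t3_rho_of_ES (hES : T3dES) : T3Rho := by
  intro N _ ℓ hℓ hℓN A hA
  let 𝔓 : FFPlace := ⟨A, ℓ, hℓ, hA⟩
  obtain ⟨e, he49, heℓ⟩ := tbq_exists_aux_level 𝔓
  have he0 : e ≠ 0 := by
    rcases he49 with rfl | rfl <;> norm_num
  haveI : NeZero e := ⟨he0⟩
  haveI : NeZero (N * e) := ⟨mul_ne_zero (NeZero.ne N) he0⟩
  have h49 : 4 ∣ N * e ∨ 9 ∣ N * e := by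
    rcases he49 with rfl | rfl
    · exact Or.inl (dvd_mul_left 4 N)
    · exact Or.inr (dvd_mul_left 9 N)
  have hM : ¬ 𝔓.p ∣ N * e := by
    intro h
    rcases (Nat.Prime.dvd_mul hℓ).mp h with h1 | h1
    · exact hℓN h1
    · exact heℓ h1
  refine ⟨Pic0 (IsLocalRing.ResidueField ↥𝔓.P) ↥(tbBarF 𝔓 (N * e)), inferInstance,
    (t3zRed 𝔓 (N * e) h49 hM).comp (t3pPull N e), ?_, ?_, ?_⟩
  · intro τ hτ x
    rw [AddMonoidHom.comp_apply, AddMonoidHom.comp_apply, t3pPull_galois]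
    exact t3zRed_inertia 𝔓 (N * e) h49 hM hτ _
  · intro σ hσ x
    have hσ' : 𝔓.P.IsFrobeniusAt σ 𝔓.p := hσ
    have h1 := t3zRed_hecke 𝔓 (N * e) h49 hM hES (σ • t3pPull N e x)
    rw [t3zRed_frobenius 𝔓 (N * e) h49 hM hσ', inv_smul_smul] at h1
    have h2 : heckeOperatorBar (N * e) ⟨ℓ, hℓ⟩ = heckeOperatorBar (N * e) ⟨𝔓.p, 𝔓.hp⟩ := rfl
    rw [AddMonoidHom.comp_apply, map_add, map_sub, map_nsmul, t3pPull_galois, t3pPull_galois,
      t3pPull_heckeOperatorBar N e hℓ hM, t3pPull_galois, map_add, map_sub, map_nsmul,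
      t3zRed_frobenius 𝔓 (N * e) h49 hM hσ', t3zRed_frobenius 𝔓 (N * e) h49 hM hσ', h2, h1]
    abel
  · intro m hm x hx h0
    have hm0 : m ≠ 0 := by
      rintro rfl
      exact hm (dvd_zero ℓ)
    have hcop : Nat.Coprime m ℓ := ((Nat.Prime.coprime_iff_not_dvd hℓ).mpr hm).symm
    refine t3pPull_injective_torsion N e hm0 x hx (t3zRed 𝔓 (N * e) h49 hM) ?_ h0
    intro y hy hy0
    haveI : IsAlgClosed (IsLocalRing.ResidueField ↥𝔓.P) := tb_isAlgClosed_residueField 𝔓.P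
    exact t3aRed_injective_torsion (t3a_good_modular 𝔓 (N * e) h49 hM) hcop y hy hy0

end Fermat.Agent.T3
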